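/-
helper53 — S37 task 233 (P-B1), part (G4): the norm formula for the pushforward of divisors.

For a finite extension `F'/F` of fields over `K` (characteristic zero), and `f : F'` nonzero,
`ord_v (N_{F'/F} f) = ∑_{w | v} f(w|v) · ord_w f` for every place `v` of `F/K`; in the Prelude
vocabulary this is `Divisor.PushforwardNormFormula K F F'`, and along an algebra hom
`φ : F →ₐ[K] F'` it is `NormFormulaAlong K φ hfin`.

Proof: `R := O_v` is a DVR, `B :=` its integral closure in `F'` is a Dedekind domain, finite over
`R`; the places of `F'` above `v` are the height-one primes of `B` (`H42.PlaceDict`), the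
residue degrees agree, and `H53.ordV_norm` (relative ideal norm) gives the formula.
-/
import Mathlib
import Fermat.Prelude.Def_AlgebraicCurve_Correspondence
import Fermat.Agent.S18.H42.PlaceDict
import Fermat.Agent.S18.H53.NormVal

set_option autoImplicit false
set_option linter.unusedSectionVars false

open AlgebraicCurve IsDedekindDomain

namespace Fermat.Agent.S37.H53

open Fermat.Agent.S18.H42 Fermat.Agent.S18.H53 Fermat.Agent.S24.H52

noncomputable section

section OnePlace

variable {K F : Type*} [Field K] [Field F] [Algebra K F]

/-- A place is a maximal proper valuation subring: two comparable places are equal. -/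
theorem place_eq_of_le {v v' : Place K F}
    (h : v.toValuationSubring ≤ v'.toValuationSubring) : v = v' := by
  have hnt : ∃ g : F, g ≠ 0 ∧ v'.ord g ≠ 0 := by
    obtain ⟨π, hπ⟩ := IsDiscreteValuationRing.exists_irreducible v'.toValuationSubring
    refine ⟨(π : F), ?_, ?_⟩
    · simpa [ne_eq, ZeroMemClass.coe_eq_zero] using hπ.ne_zero
    · rw [v'.ord_coe_irreducible hπ]
      exact one_ne_zero
  have key := mem_iff_of_le v (isAddVal_ord v')
    (fun f _ hm => ord_nonneg_of_mem v' (h hm)) hnt
  apply Place.ext
  apply SetLike.ext
  intro f
  by_cases hf : f = 0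
  · rw [hf]
    exact ⟨fun _ => ValuationSubring.zero_mem _, fun _ => ValuationSubring.zero_mem _⟩
  · rw [key f hf, mem_iff_ord_nonneg v' hf]

/-- Transport of residue fields along an equality of places. -/
def residueCongr {v v' : Place K F} (h : v = v') : v.ResidueField ≃+* v'.ResidueField :=
  h ▸ RingEquiv.refl _

theorem residueCongr_residue {v v' : Place K F} (h : v = v') (a : F)
    (ha : a ∈ v.toValuationSubring) :
    residueCongr h (IsLocalRing.residue _ ⟨a, ha⟩) =
      IsLocalRing.residue _ (⟨a, h ▸ ha⟩ : v'.toValuationSubring) := by
  subst h
  rfl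

end OnePlace

section Relative

variable {K F F' : Type*} [Field K] [Field F] [Field F'] [Algebra K F] [Algebra K F']
  [Algebra F F'] [IsScalarTower K F F'] [Algebra.IsIntegral F F']

omit [Algebra K F'] [IsScalarTower K F F'] [Algebra.IsIntegral F F'] in
/-- The tower `O_v → F → F'`. -/
theorem isScalarTower_place (v : Place K F) : IsScalarTower v.toValuationSubring F F' :=
  IsScalarTower.of_algebraMap_eq fun _ => rfl

variable (v : Place K F) {B : Type*} [CommRing B] [IsDedekindDomain B]
  [Algebra v.toValuationSubring B] [Algebra B F'] [IsScalarTower v.toValuationSubring B F']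
  [hIC : IsIntegralClosure B v.toValuationSubring F'] [IsFractionRing B F']
  [Algebra K B] [IsScalarTower K B F']

omit [IsDedekindDomain B] [IsIntegralClosure B v.toValuationSubring F'] [IsFractionRing B F']
  [Algebra K B] [IsScalarTower K B F'] [Algebra.IsIntegral F F'] [Algebra K F']
  [IsScalarTower K F F'] in
theorem algebraMap_algebraMap_place (a : v.toValuationSubring) :
    algebraMap B F' (algebraMap v.toValuationSubring B a) = algebraMap F F' (a : F) := by
  rw [← IsScalarTower.algebraMap_apply v.toValuationSubring B F']
  rfl

omit [IsIntegralClosure B v.toValuationSubring F'] in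
/-- Every prime of the integral closure of `O_v` gives a place above `v`. -/
theorem restrict_placeOfPrime (P : HeightOneSpectrum B) :
    (placeOfPrime (K := K) (F := F') P).restrict F = v := by
  symm
  apply place_eq_of_le
  intro a ha
  show algebraMap F F' a ∈ (placeOfPrime (K := K) (F := F') P).toValuationSubring
  rw [← algebraMap_algebraMap_place v (B := B) ⟨a, ha⟩]
  exact algebraMap_mem_placeOfPrime P _

omit [IsDedekindDomain B] [IsFractionRing B F'] [Algebra K B] [IsScalarTower K B F'] in
/-- The valuation ring of a place above `v` contains the integral closure of `O_v`. -/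
theorem algebraMap_mem_of_restrict_eq {w : Place K F'} (hw : w.restrict F = v) (b : B) :
    algebraMap B F' b ∈ w.toValuationSubring := by
  subst hw
  have hb : IsIntegral (w.restrict F).toValuationSubring (algebraMap B F' b) :=
    (IsIntegralClosure.isIntegral_iff (A := B)).mpr ⟨b, rfl⟩
  have hx : IsIntegral w.toValuationSubring (algebraMap B F' b) := by
    have := IsIntegral.map_of_comp_eq (Place.restrictInclusion F w) (RingHom.id F')
      (by ext a; rfl) hb
    simpa using this
  obtain ⟨y, hy⟩ := IsIntegrallyClosed.isIntegral_iff.mp hx
  exact hy ▸ y.2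

variable (F') in
include hIC in
/-- Every height-one prime of the integral closure lies over the maximal ideal of `O_v`. -/
theorem under_eq_maximalIdeal (P : HeightOneSpectrum B) :
    P.asIdeal.under v.toValuationSubring = IsLocalRing.maximalIdeal v.toValuationSubring := by
  have : Algebra.IsIntegral v.toValuationSubring B :=
    IsIntegralClosure.isIntegral_algebra v.toValuationSubring F'
  have := P.isMaximal
  exact IsLocalRing.eq_maximalIdeal
    (Ideal.isMaximal_comap_of_isIntegral_of_isMaximal P.asIdeal)

variable (F') in
include hIC in
theorem mem_primesAbove_place (P : HeightOneSpectrum B) :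
    P ∈ primesAbove B v.heightOneSpectrum :=
  under_eq_maximalIdeal F' v P

/-- The centre on `B` of the place attached to `P` is `P`. -/
theorem mem_asIdeal_iff_residue (P : HeightOneSpectrum B) (b : B) :
    b ∈ P.asIdeal ↔
      IsLocalRing.residue (placeOfPrime (K := K) (F := F') P).toValuationSubring
        (toPlaceRing (placeOfPrime (K := K) (F := F') P) (algebraMap_mem_placeOfPrime P) b)
        = 0 := by
  rw [IsLocalRing.residue_eq_zero_iff]
  have h := primeOfPlace_placeOfPrime (K := K) (F := F') P
  have h2 : b ∈ (primeOfPlace (placeOfPrime (K := K) (F := F') P)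
      (algebraMap_mem_placeOfPrime P)).asIdeal ↔ b ∈ P.asIdeal := by rw [h]
  rw [← h2]
  rfl

/-- The residue degree of the place attached to `P` is the inertia degree of `P`. -/
theorem inertiaDeg_placeOfPrime (P : HeightOneSpectrum B) :
    (placeOfPrime (K := K) (F := F') P).inertiaDeg F =
      P.asIdeal.inertiaDeg v.toValuationSubring := by
  have hw : (placeOfPrime (K := K) (F := F') P).restrict F = v := restrict_placeOfPrime v P
  have hB : ∀ b : B, algebraMap B F' b ∈ (placeOfPrime (K := K) (F := F') P).toValuationSubring :=
    algebraMap_mem_placeOfPrime P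
  have : P.asIdeal.IsMaximal := P.isMaximal
  have : P.asIdeal.LiesOver (IsLocalRing.maximalIdeal v.toValuationSubring) :=
    ⟨(under_eq_maximalIdeal F' v P).symm⟩
  rw [Ideal.inertiaDeg_eq_of_isMaximal (IsLocalRing.maximalIdeal v.toValuationSubring) P.asIdeal]
  let j0 : B ⧸ P.asIdeal →+* (placeOfPrime (K := K) (F := F') P).ResidueField :=
    Ideal.Quotient.lift P.asIdeal
      ((IsLocalRing.residue (placeOfPrime (K := K) (F := F') P).toValuationSubring).comp
        (toPlaceRing (placeOfPrime (K := K) (F := F') P) hB))
      (fun b hb => (mem_asIdeal_iff_residue P b).mp hb)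
  have hj0 : Function.Bijective j0 := by
    let _ : Field (B ⧸ P.asIdeal) := Ideal.Quotient.field P.asIdeal
    refine ⟨j0.injective, ?_⟩
    intro y
    obtain ⟨⟨f, hf⟩, rfl⟩ := IsLocalRing.residue_surjective y
    by_cases hf0 : f = 0
    · refine ⟨0, ?_⟩
      rw [map_zero]
      symm
      rw [IsLocalRing.residue_eq_zero_iff]
      have : (⟨f, hf⟩ : (placeOfPrime (K := K) (F := F') P).toValuationSubring) = 0 :=
        Subtype.ext hf0
      rw [this]
      exact Ideal.zero_mem _
    have hval : P.valuation F' f ≤ 1 := (mem_placeOfPrime_iff P hf0).mp hf
    obtain ⟨n, d, hnd⟩ := P.exists_primeCompl_mul_eq_of_integer f hval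
    have hd : Ideal.Quotient.mk P.asIdeal (d : B) ≠ 0 := by
      rw [ne_eq, Ideal.Quotient.eq_zero_iff_mem]
      exact d.2
    obtain ⟨e, he⟩ := Ideal.Quotient.mk_surjective (Ideal.Quotient.mk P.asIdeal (d : B))⁻¹
    have hde : Ideal.Quotient.mk P.asIdeal ((d : B) * e) = 1 := by
      rw [map_mul, he, mul_inv_cancel₀ hd]
    refine ⟨Ideal.Quotient.mk P.asIdeal (n * e), ?_⟩
    have h1 : j0 (Ideal.Quotient.mk P.asIdeal ((d : B) * e)) = 1 := by rw [hde, map_one]
    have h2 : (⟨f, hf⟩ : (placeOfPrime (K := K) (F := F') P).toValuationSubring) *
        toPlaceRing (placeOfPrime (K := K) (F := F') P) hB ((d : B) * e) =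
        toPlaceRing (placeOfPrime (K := K) (F := F') P) hB (n * e) := by
      apply Subtype.ext
      show f * algebraMap B F' ((d : B) * e) = algebraMap B F' (n * e)
      rw [map_mul, map_mul, ← mul_assoc, hnd]
    show IsLocalRing.residue _ (toPlaceRing (placeOfPrime (K := K) (F := F') P) hB (n * e)) = _
    rw [← h2, map_mul]
    have h1' : IsLocalRing.residue _
        (toPlaceRing (placeOfPrime (K := K) (F := F') P) hB ((d : B) * e)) = 1 := h1
    rw [h1', mul_one]
  symm
  refine Algebra.finrank_eq_of_equiv_equiv (residueCongr hw.symm) (RingEquiv.ofBijective j0 hj0) ?_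
  apply Ideal.Quotient.ringHom_ext
  ext a
  show algebraMap _ _ (residueCongr hw.symm (IsLocalRing.residue _ ⟨(a : F), a.2⟩)) =
    j0 (algebraMap (v.toValuationSubring ⧸ IsLocalRing.maximalIdeal v.toValuationSubring)
      (B ⧸ P.asIdeal) (Ideal.Quotient.mk _ a))
  rw [residueCongr_residue, Place.algebraMap_residueField_eq, Place.restrictResidueMap_residue,
    Ideal.Quotient.algebraMap_mk_of_liesOver]
  show _ = IsLocalRing.residue _ (toPlaceRing (placeOfPrime (K := K) (F := F') P) hB _)
  refine congrArg _ (Subtype.ext ?_)
  exact (algebraMap_algebraMap_place v a).symm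

/-- The norm formula at one place, for any model `B` of the integral closure of `O_v`. -/
theorem pushforward_apply_eq_ord_norm [Module.Finite F F']
    [Module.Finite v.toValuationSubring B] [Module.IsTorsionFree v.toValuationSubring B]
    [PerfectField (FractionRing v.toValuationSubring)]
    {f : F'} (hf : f ≠ 0) (D : Divisor K F') (hD : ∀ w, D w = w.ord f) :
    Divisor.pushforward F D v = v.ord (Algebra.norm F f) := by
  classical
  have : IsScalarTower v.toValuationSubring F F' := isScalarTower_place v
  have hnorm := ordV_norm (R := v.toValuationSubring) (B := B) (L := F) (F := F')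
    v.heightOneSpectrum hf
  have hord : v.ord (Algebra.norm F f) = ordV v.heightOneSpectrum F (Algebra.norm F f) := rfl
  rw [hord, hnorm, Divisor.pushforward_apply]
  symm
  have hPw : ∀ P : HeightOneSpectrum B,
      (placeOfPrime (K := K) (F := F') P).ord f = ordV P F' f := fun P =>
    placeOfPrime_ord P hf
  refine Finset.sum_bij_ne_zero (fun P _ _ => placeOfPrime (K := K) (F := F') P) ?_ ?_ ?_ ?_
  · intro P _ hne
    rw [Finsupp.mem_support_iff, hD, hPw]
    exact right_ne_zero_of_mul hne
  · intro P _ _ Q _ _ h
    exact placeOfPrime_injective h
  · intro w _ hne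
    have hw : w.restrict F = v := by
      by_contra hcon
      exact hne (if_neg hcon)
    have hB := algebraMap_mem_of_restrict_eq v (B := B) hw
    have hPeq : placeOfPrime (K := K) (F := F') (primeOfPlace w hB) = w :=
      placeOfPrime_primeOfPlace w hB
    have hval : ((primeOfPlace w hB).asIdeal.inertiaDeg v.toValuationSubring : ℤ) *
        ordV (primeOfPlace w hB) F' f = D w * (w.inertiaDeg F : ℤ) := by
      rw [← inertiaDeg_placeOfPrime (F' := F') v (primeOfPlace w hB), ← hPw, hPeq, hD, mul_comm]
    refine ⟨primeOfPlace w hB, ?_, ?_, hPeq⟩
    · rw [Set.Finite.mem_toFinset]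
      exact mem_primesAbove_place F' v _
    · rw [hval]
      rw [if_pos hw] at hne
      exact hne
  · intro P _ _
    rw [if_pos (restrict_placeOfPrime v P), hD, hPw, inertiaDeg_placeOfPrime v P, mul_comm]

end Relative

section Main

variable {K F F' : Type*} [Field K] [Field F] [Field F'] [Algebra K F] [Algebra K F']

/-- **(G4)** The norm formula for the pushforward of principal divisors along a finite extension
of fields of characteristic zero: `ord_v (N_{F'/F} f) = ∑_{w | v} f(w|v) · ord_w f`. -/
theorem pushforwardNormFormula [Algebra F F'] [IsScalarTower K F F'] [Algebra.IsIntegral F F']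
    [Module.Finite F F'] [CharZero F] : Divisor.PushforwardNormFormula K F F' := by
  intro f hf D hD v
  have : IsScalarTower v.toValuationSubring F F' := isScalarTower_place v
  have hDed : IsDedekindDomain (integralClosure v.toValuationSubring F') :=
    integralClosure.isDedekindDomain v.toValuationSubring F F'
  have hFrac : IsFractionRing (integralClosure v.toValuationSubring F') F' :=
    integralClosure.isFractionRing_of_finite_extension F F'
  have hFin : Module.Finite v.toValuationSubring (integralClosure v.toValuationSubring F') :=
    IsIntegralClosure.finite v.toValuationSubring F F' _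
  have hTF : Module.IsTorsionFree v.toValuationSubring
      (integralClosure v.toValuationSubring F') := by
    rw [Module.isTorsionFree_iff_algebraMap_injective]
    intro a b hab
    have h := congrArg (algebraMap (integralClosure v.toValuationSubring F') F') hab
    rw [algebraMap_algebraMap_place, algebraMap_algebraMap_place] at h
    exact Subtype.ext ((algebraMap F F').injective h)
  let _ : Algebra K (integralClosure v.toValuationSubring F') :=
    ((algebraMap v.toValuationSubring (integralClosure v.toValuationSubring F')).comp
      (algebraMap K v.toValuationSubring)).toAlgebra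
  have hTower : IsScalarTower K (integralClosure v.toValuationSubring F') F' :=
    IsScalarTower.of_algebraMap_eq fun k => by
      show algebraMap K F' k = algebraMap (integralClosure v.toValuationSubring F') F'
        (algebraMap v.toValuationSubring (integralClosure v.toValuationSubring F')
          (algebraMap K v.toValuationSubring k))
      rw [algebraMap_algebraMap_place, IsScalarTower.algebraMap_apply K F F']
      rfl
  exact pushforward_apply_eq_ord_norm v (B := integralClosure v.toValuationSubring F') hf D hD

/-- **(G4), along an algebra homomorphism.** -/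
theorem normFormulaAlong [CharZero F] (φ : F →ₐ[K] F') (hfin : FiniteAlong K φ) :
    NormFormulaAlong K φ hfin := by
  let _ := algebraAlong φ
  have := isScalarTower_along φ
  have : Module.Finite F F' := hfin
  exact pushforwardNormFormula

/-- `pushforwardNormFormula` with the characteristic hypothesis on the base field. -/
theorem pushforwardNormFormula_of_charZero [CharZero K] [Algebra F F'] [IsScalarTower K F F']
    [Algebra.IsIntegral F F'] [Module.Finite F F'] : Divisor.PushforwardNormFormula K F F' := by
  have : CharZero F := charZero_of_injective_algebraMap (algebraMap K F).injective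
  exact pushforwardNormFormula

/-- `normFormulaAlong` with the characteristic hypothesis on the base field. -/
theorem normFormulaAlong_of_charZero [CharZero K] (φ : F →ₐ[K] F') (hfin : FiniteAlong K φ) :
    NormFormulaAlong K φ hfin := by
  have : CharZero F := charZero_of_injective_algebraMap (algebraMap K F).injective
  exact normFormulaAlong φ hfin

end Main

end

end Fermat.Agent.S37.H53
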