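/-
helper53 — S37 task 233 (P-B1), parts (G3) and (V), as corollaries of the norm formula (G4).

* `sumRamificationInertia` : `∑_{w | v} e(w|v) f(w|v) = [F' : F]` (Prelude class
  `SumRamificationInertia K F F'`, hence `FundamentalIdentity K F F'`), obtained by applying the
  norm formula to a uniformizer of `v`: `N_{F'/F}(t) = t ^ [F' : F]`.
* `pushforward_pullback` : `pushforward (pullback D) = [F' : F] • D`.
* the `Along` forms for an algebra homomorphism `φ : F →ₐ[K] F'`.
-/
import Mathlib
import Fermat.Agent.S37.H53.NormFormula

set_option autoImplicit false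

open AlgebraicCurve IsDedekindDomain

namespace Fermat.Agent.S37.H53

noncomputable section

section Ext

variable {K F F' : Type*} [Field K] [Field F] [Field F'] [Algebra K F] [Algebra K F']
  [Algebra F F'] [IsScalarTower K F F'] [Algebra.IsIntegral F F'] [HasPrincipalDivisors K F']

/-- **(G3)** `∑_{w | v} e(w|v) f(w|v) = [F' : F]`, from the norm formula applied to a
uniformizer. -/
theorem sum_ramificationIndex_mul_inertiaDeg [Module.Finite F F']
    (H : Divisor.PushforwardNormFormula K F F') (v : Place K F) :
    ∑ w ∈ v.fiber F', (w.ramificationIndex F : ℤ) * (w.inertiaDeg F : ℤ)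
      = (Module.finrank F F' : ℤ) := by
  classical
  obtain ⟨π, hπ⟩ := IsDiscreteValuationRing.exists_irreducible v.toValuationSubring
  have ht0 : (π : F) ≠ 0 := by
    simpa [ne_eq, ZeroMemClass.coe_eq_zero] using hπ.ne_zero
  have htord : v.ord (π : F) = 1 := v.ord_coe_irreducible hπ
  have hf : algebraMap F F' (π : F) ≠ 0 := by simpa using ht0
  obtain ⟨D, hD, -⟩ := HasPrincipalDivisors.exists_divisor (K := K) (algebraMap F F' (π : F)) hf
  have hDw : ∀ w : Place K F', w.restrict F = v → D w = (w.ramificationIndex F : ℤ) := by
    intro w hw
    rw [hD, w.ord_restrict, hw, htord, mul_one]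
  have h := H _ hf D hD v
  rw [Algebra.norm_algebraMap, ← zpow_natCast, v.ord_zpow, htord, mul_one,
    Divisor.pushforward_apply, ← Finset.sum_filter] at h
  rw [← h]
  have hset : D.support.filter (fun w => w.restrict F = v) = v.fiber F' := by
    ext w
    rw [Finset.mem_filter, Place.mem_fiber, Finsupp.mem_support_iff]
    refine ⟨fun hw => hw.2, fun hw => ⟨?_, hw⟩⟩
    rw [hDw w hw]
    have := w.ramificationIndex_pos (F := F)
    exact_mod_cast this.ne'
  rw [hset]
  refine Finset.sum_congr rfl fun w hw => ?_
  rw [hDw w (Place.mem_fiber.mp hw)]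

theorem sumRamificationInertia_of_normFormula [Module.Finite F F']
    (H : Divisor.PushforwardNormFormula K F F') : SumRamificationInertia K F F' :=
  ⟨fun v => sum_ramificationIndex_mul_inertiaDeg H v⟩

/-- **(G3)** for a finite extension in characteristic zero. -/
theorem sumRamificationInertia [Module.Finite F F'] [CharZero F] :
    SumRamificationInertia K F F' :=
  sumRamificationInertia_of_normFormula pushforwardNormFormula

/-- **(G3)** The fundamental identity `∑_{w | v} e(w|v) deg w = [F' : F] deg v`. -/
theorem fundamentalIdentity [Module.Finite F F'] [CharZero F] : FundamentalIdentity K F F' :=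
  haveI := sumRamificationInertia (K := K) (F := F) (F' := F')
  inferInstance

/-- **(V)** `pushforward ∘ pullback` is multiplication by the degree. -/
theorem pushforward_pullback_of_sum
    (H : ∀ v : Place K F, ∑ w ∈ v.fiber F', (w.ramificationIndex F : ℤ) * (w.inertiaDeg F : ℤ)
      = (Module.finrank F F' : ℤ)) (D : Divisor K F) :
    Divisor.pushforward F (Divisor.pullback F' D) = Module.finrank F F' • D := by
  classical
  ext v
  rw [Divisor.pushforward_apply, ← Finset.sum_filter, Finsupp.smul_apply, nsmul_eq_mul, ← H v,
    Finset.sum_mul]
  have hsub : (Divisor.pullback F' D).support.filter (fun w => w.restrict F = v) ⊆ v.fiber F' := by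
    intro w hw
    exact Place.mem_fiber.mpr (Finset.mem_filter.mp hw).2
  rw [Finset.sum_subset hsub]
  · refine Finset.sum_congr rfl fun w hw => ?_
    rw [Divisor.pullback_apply, Place.mem_fiber.mp hw]
    ring
  · intro w hw hnot
    have h0 : Divisor.pullback F' D w = 0 := by
      by_contra hne
      exact hnot (Finset.mem_filter.mpr ⟨Finsupp.mem_support_iff.mpr hne, Place.mem_fiber.mp hw⟩)
    rw [h0, zero_mul]

/-- **(V)** for a finite extension in characteristic zero. -/
theorem pushforward_pullback [Module.Finite F F'] [CharZero F] (D : Divisor K F) :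
    Divisor.pushforward F (Divisor.pullback F' D) = Module.finrank F F' • D :=
  pushforward_pullback_of_sum (sum_ramificationIndex_mul_inertiaDeg pushforwardNormFormula) D

end Ext

section Along

variable {K F F' : Type*} [Field K] [Field F] [Field F'] [Algebra K F] [Algebra K F']
  [HasPrincipalDivisors K F']

/-- **(G3), along an algebra homomorphism.** -/
theorem fundamentalIdentityAlong [CharZero F] (φ : F →ₐ[K] F') (hφ : φ.toRingHom.IsIntegral)
    (hfin : FiniteAlong K φ) : FundamentalIdentityAlong K φ hφ := by
  let _ := algebraAlong φ
  have := isScalarTower_along φ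
  have := isIntegral_along φ hφ
  have : Module.Finite F F' := hfin
  exact fundamentalIdentity

/-- **(V), along an algebra homomorphism.** -/
theorem pushforwardAlong_pullbackAlong [CharZero F] (φ : F →ₐ[K] F')
    (hφ : φ.toRingHom.IsIntegral) (hfin : FiniteAlong K φ) (D : Divisor K F) :
    Divisor.pushforwardAlong φ hφ (Divisor.pullbackAlong φ hφ D) = finrankAlong K φ • D := by
  let _ := algebraAlong φ
  have := isScalarTower_along φ
  have := isIntegral_along φ hφ
  have : Module.Finite F F' := hfin
  exact pushforward_pullback D

/-- `fundamentalIdentityAlong` with the characteristic hypothesis on the base field. -/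
theorem fundamentalIdentityAlong_of_charZero [CharZero K] (φ : F →ₐ[K] F')
    (hφ : φ.toRingHom.IsIntegral) (hfin : FiniteAlong K φ) : FundamentalIdentityAlong K φ hφ := by
  have : CharZero F := charZero_of_injective_algebraMap (algebraMap K F).injective
  exact fundamentalIdentityAlong φ hφ hfin

/-- `pushforwardAlong_pullbackAlong` with the characteristic hypothesis on the base field. -/
theorem pushforwardAlong_pullbackAlong_of_charZero [CharZero K] (φ : F →ₐ[K] F')
    (hφ : φ.toRingHom.IsIntegral) (hfin : FiniteAlong K φ) (D : Divisor K F) :
    Divisor.pushforwardAlong φ hφ (Divisor.pullbackAlong φ hφ D) = finrankAlong K φ • D := by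
  have : CharZero F := charZero_of_injective_algebraMap (algebraMap K F).injective
  exact pushforwardAlong_pullbackAlong φ hφ hfin D

end Along

end

end Fermat.Agent.S37.H53
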