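/-
helper53 — S37 glue (a) of task P-H0: descent of principality along a finite map.

If the pullback of a divisor `D` along a finite `φ : F →ₐ[K] F'` is principal, then
`[F' : φ F] • D` is principal (push forward: `φ_* φ^* D = deg φ • D` and the norm formula).
-/
import Mathlib
import Fermat.Agent.S37.H53.FundId

set_option autoImplicit false

open AlgebraicCurve

namespace Fermat.Agent.S37.H53

section

variable {K F F' : Type*} [Field K] [Field F] [Field F'] [Algebra K F] [Algebra K F']
  [HasPrincipalDivisors K F']

/-- **(hdesc)** `φ^* D` principal implies `deg φ • D` principal. -/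
theorem nsmul_isPrincipal_of_pullbackAlong [CharZero K] (φ : F →ₐ[K] F')
    (hφ : φ.toRingHom.IsIntegral) (hfin : FiniteAlong K φ) {D : Divisor K F}
    (h : (Divisor.pullbackAlong φ hφ D).IsPrincipal) :
    (finrankAlong K φ • D).IsPrincipal := by
  rw [← pushforwardAlong_pullbackAlong_of_charZero φ hφ hfin D]
  exact Divisor.isPrincipal_pushforwardAlong φ hφ hfin (normFormulaAlong_of_charZero φ hfin) h

/-- **(hdesc)**, membership form. -/
theorem nsmul_mem_principal_of_pullbackAlong [CharZero K] (φ : F →ₐ[K] F')
    (hφ : φ.toRingHom.IsIntegral) (hfin : FiniteAlong K φ) {D : Divisor K F}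
    (h : Divisor.pullbackAlong φ hφ D ∈ Divisor.principal (K := K) (F := F')) :
    finrankAlong K φ • D ∈ Divisor.principal (K := K) (F := F) :=
  nsmul_isPrincipal_of_pullbackAlong φ hφ hfin h

/-- **(hdesc)**, integer-multiple form. -/
theorem zsmul_mem_principal_of_pullbackAlong [CharZero K] (φ : F →ₐ[K] F')
    (hφ : φ.toRingHom.IsIntegral) (hfin : FiniteAlong K φ) {D : Divisor K F}
    (h : Divisor.pullbackAlong φ hφ D ∈ Divisor.principal (K := K) (F := F')) :
    (finrankAlong K φ : ℤ) • D ∈ Divisor.principal (K := K) (F := F) := by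
  rw [natCast_zsmul]
  exact nsmul_mem_principal_of_pullbackAlong φ hφ hfin h

end

end Fermat.Agent.S37.H53
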