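/-
helper53 — S37 glue (b) of task P-H0: the Prelude Hecke module structure on `JZero N` acts on
divisor classes through the Hecke correspondence `T_ℓ = α_* β^*`.

`heckeGen_smul_mk` is the `hTdiv` hypothesis of `H36.core_clause` with
`Tdiv := Divisor.correspondence (heckeBetaBar ℚbar N ℓ) (heckeAlphaBar ℚbar N ℓ) hβ hα`.
-/
import Mathlib
import Fermat.Prelude.Def_ModularCurve_HeckeModule
import Fermat.Agent.S37.H53.FundId

set_option autoImplicit false

open AlgebraicCurve ModularCurve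

namespace Fermat.Agent.S37.H53

section

variable (N : ℕ) [NeZero N]

/-- The Hecke operator at `ℓ` (total version) is the correspondence `α_* β^*` on classes. -/
theorem heckeOperatorAlong_mk (ℓ : ℕ) [NeZero ℓ]
    [HasPrincipalDivisors (AlgebraicClosure ℚ)
      (laurentBaseChange (AlgebraicClosure ℚ) (modularFunctionFieldFull (N * ℓ)))]
    (hα : HeckeAlphaBarIntegral (AlgebraicClosure ℚ) N ℓ)
    (hβ : HeckeBetaBarIntegral (AlgebraicClosure ℚ) N ℓ)
    (hfinα : FiniteAlong (AlgebraicClosure ℚ) (heckeAlphaBar (AlgebraicClosure ℚ) N ℓ))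
    (hfinβ : FiniteAlong (AlgebraicClosure ℚ) (heckeBetaBar (AlgebraicClosure ℚ) N ℓ))
    (D : Divisor.degZero (K := AlgebraicClosure ℚ)
      (F := laurentBaseChange (AlgebraicClosure ℚ) (modularFunctionFieldFull N))) :
    ∃ h : Divisor.correspondence (heckeBetaBar (AlgebraicClosure ℚ) N ℓ)
          (heckeAlphaBar (AlgebraicClosure ℚ) N ℓ) hβ hα D.1 ∈
        Divisor.degZero (K := AlgebraicClosure ℚ)
          (F := laurentBaseChange (AlgebraicClosure ℚ) (modularFunctionFieldFull N)),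
      heckeOperatorAlong (AlgebraicClosure ℚ) N ℓ (Pic0.mk D) =
        Pic0.mk ⟨Divisor.correspondence (heckeBetaBar (AlgebraicClosure ℚ) N ℓ)
          (heckeAlphaBar (AlgebraicClosure ℚ) N ℓ) hβ hα D.1, h⟩ := by
  have hFI : FundamentalIdentityAlong (AlgebraicClosure ℚ)
      (heckeBetaBar (AlgebraicClosure ℚ) N ℓ) hβ :=
    fundamentalIdentityAlong_of_charZero _ hβ hfinβ
  have hN : NormFormulaAlong (AlgebraicClosure ℚ) (heckeAlphaBar (AlgebraicClosure ℚ) N ℓ) hfinα :=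
    normFormulaAlong_of_charZero _ hfinα
  refine ⟨Divisor.correspondence_mem_degZero _ _ hβ hα hFI D.2, ?_⟩
  rw [heckeOperatorAlong_eq hα hβ hFI hfinα hN]
  rfl

/-- **Glue (b)**: `heckeGen ℓ • [D] = [α_* β^* D]` for the Prelude module structure
`heckeModuleBar N` (under `HeckeOperatorsCommuteBar N`).  This is `hTdiv` of `H36.core_clause`. -/
theorem heckeGen_smul_mk (hcomm : HeckeOperatorsCommuteBar N) (ℓ : ℕ) (hℓ : ℓ.Prime) [NeZero ℓ]
    [HasPrincipalDivisors (AlgebraicClosure ℚ)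
      (laurentBaseChange (AlgebraicClosure ℚ) (modularFunctionFieldFull (N * ℓ)))]
    (hα : HeckeAlphaBarIntegral (AlgebraicClosure ℚ) N ℓ)
    (hβ : HeckeBetaBarIntegral (AlgebraicClosure ℚ) N ℓ)
    (hfinα : FiniteAlong (AlgebraicClosure ℚ) (heckeAlphaBar (AlgebraicClosure ℚ) N ℓ))
    (hfinβ : FiniteAlong (AlgebraicClosure ℚ) (heckeBetaBar (AlgebraicClosure ℚ) N ℓ)) :
    letI := heckeModuleBar N
    ∀ D : Divisor.degZero (K := AlgebraicClosure ℚ)
        (F := laurentBaseChange (AlgebraicClosure ℚ) (modularFunctionFieldFull N)),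
      ∃ h : Divisor.correspondence (heckeBetaBar (AlgebraicClosure ℚ) N ℓ)
            (heckeAlphaBar (AlgebraicClosure ℚ) N ℓ) hβ hα D.1 ∈
          Divisor.degZero (K := AlgebraicClosure ℚ)
            (F := laurentBaseChange (AlgebraicClosure ℚ) (modularFunctionFieldFull N)),
        heckeGen ⟨ℓ, hℓ⟩ • (Pic0.mk D : Pic0 (AlgebraicClosure ℚ)
            (laurentBaseChange (AlgebraicClosure ℚ) (modularFunctionFieldFull N))) =
          Pic0.mk ⟨Divisor.correspondence (heckeBetaBar (AlgebraicClosure ℚ) N ℓ)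
            (heckeAlphaBar (AlgebraicClosure ℚ) N ℓ) hβ hα D.1, h⟩ := by
  intro D
  obtain ⟨h, hD⟩ := heckeOperatorAlong_mk N ℓ hα hβ hfinα hfinβ D
  refine ⟨h, ?_⟩
  rw [← hD]
  exact heckeModuleBar_heckeGen_smul hcomm ⟨ℓ, hℓ⟩ (Pic0.mk D)

/-- `heckeGen ℓ • z = heckeOperatorAlong ℚbar N ℓ z` for the Prelude module structure. -/
theorem heckeGen_smul_eq_heckeOperatorAlong (hcomm : HeckeOperatorsCommuteBar N) (ℓ : ℕ)
    (hℓ : ℓ.Prime) [NeZero ℓ] (z : JZero N) :
    (letI := heckeModuleBar N; heckeGen ⟨ℓ, hℓ⟩ • z) =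
      heckeOperatorAlong (AlgebraicClosure ℚ) N ℓ z :=
  heckeModuleBar_heckeGen_smul hcomm ⟨ℓ, hℓ⟩ z

end

end Fermat.Agent.S37.H53
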